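import Fermat.Agent.S41.H221.PD

/-!
# The Manin pairing is anti-invariant under `ε = diag(-1, 1)`  (helper221)

Leaf EPS (= (P4) of `coord/S15-COUNT2-helper111.md`, route P of helper337) of row S15, node DESC, tower COUNT.

`Ad ε : g = [[a, b], [c, d]] ↦ ε g ε⁻¹ = [[a, -b], [-c, d]]`.  SHAPE-INDEPENDENT statement: for ANY subgroup
`Γ ≤ SL(2,ℤ)` of finite index with `-1 ∈ Γ`, ANY commutative ring `R` and ANY map `σ : Γ →* Γ` which is `Ad ε`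
entrywise (`IsEpsConj γ (σ γ)`),

  `maninPairing Γ (x ∘ σ) (y ∘ σ) = - maninPairing Γ x y`      (`x, y` cuspidal).

* `maninPairing_beta`      : the β-formula (S41 A4) over any commutative ring;
* `exists_isHeisLift`      : Heisenberg lifts exist over any commutative ring;
* `maninPairing_comp_eps`  : the theorem above;
* `gamma0Eps n : Gamma0 n ≃* Gamma0 n`, `maninPairing_gamma0Eps`, `isCuspidal_comp_gamma0Eps` : the case `Γ₀(n)`.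

Proof: `ζ ∘ σ` is a Heisenberg lift of `(x ∘ σ, y ∘ σ)`; `γ ↦ (σ γ)⁻¹` maps cusp systems to cusp systems
(`Ad ε` maps positive parabolic elements to negative ones); `ζ (δ⁻¹) = - ζ δ` for parabolic `δ`.
-/

set_option autoImplicit false

namespace Fermat.Agent.S15.H221

open CongruenceSubgroup Matrix.SpecialLinearGroup ModularCurve.Period ModularGroup
open Fermat.Agent.S41 Fermat.Agent.S41.Spec
open scoped MatrixGroups

universe u

/-! ## The β-formula over a commutative ring -/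

section Beta

variable {Γ : Subgroup SL(2, ℤ)} [Γ.FiniteIndex]

/-- Heisenberg lifts exist (any commutative ring). -/
theorem exists_isHeisLift (hneg : (-1 : SL(2, ℤ)) ∈ Γ) {R : Type u} [CommRing R]
    {φ ψ : Additive Γ →+ R} (hφ : IsCuspidalOn Γ φ) (hψ : IsCuspidalOn Γ ψ) :
    ∃ ζ : Γ → R, IsHeisLift Γ φ ψ ζ := by
  obtain ⟨m, hm⟩ := S41.H460.maninRepExists Γ hneg R φ hφ.2
  obtain ⟨e, he⟩ := (S41.H581.maninRepParabolic Γ hneg R φ m hm).1 hφ.1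
  obtain ⟨m', hm'⟩ := S41.H460.maninRepExists Γ hneg R ψ hψ.2
  obtain ⟨e', he'⟩ := (S41.H581.maninRepParabolic Γ hneg R ψ m' hm').1 hψ.1
  obtain ⟨ζ, hζ, -⟩ := S41.H221.heisLift S41.H768.torsionClass Γ hneg R φ ψ m m' e e' hm hm' he he'
  exact ⟨ζ, hζ⟩

/-- **β-formula** (S41 A4) over any commutative ring: for ANY Heisenberg lift and ANY cusp system. -/
theorem maninPairing_beta (hneg : (-1 : SL(2, ℤ)) ∈ Γ) {R : Type u} [CommRing R]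
    {φ ψ : Additive Γ →+ R} {ζ : Γ → R} (hφ : IsCuspidalOn Γ φ) (hψ : IsCuspidalOn Γ ψ)
    (hζ : IsHeisLift Γ φ ψ ζ) {ι : Type} [Fintype ι] {γ : ι → Γ} (hγ : IsCuspSystem Γ γ) :
    ∑ i, ζ (γ i) = - maninPairing Γ φ ψ := by
  have hA1 : ManinPairingEqStatement.{u} :=
    S41.H221.maninPairingEq S41.H460.maninRepZero S41.H460.maninRepLinear
      S41.H581.maninRepParabolic S41.H281.maninSkew
  obtain ⟨m, hm⟩ := S41.H460.maninRepExists Γ hneg R φ hφ.2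
  obtain ⟨e, he⟩ := (S41.H581.maninRepParabolic Γ hneg R φ m hm).1 hφ.1
  obtain ⟨m', hm'⟩ := S41.H460.maninRepExists Γ hneg R ψ hψ.2
  obtain ⟨e', he'⟩ := (S41.H581.maninRepParabolic Γ hneg R ψ m' hm').1 hψ.1
  obtain ⟨ζ₀, hζ₀, hβ⟩ :=
    S41.H221.heisLift S41.H768.torsionClass Γ hneg R φ ψ m m' e e' hm hm' he he'
  obtain ⟨ι₀, inst₀, γ₀, h₀, w₀, hsys⟩ := S41.H769.tOrbitSystemExists Γ
  have hcusp₀ := S41.H769.tOrbitCusp Γ hneg ι₀ γ₀ h₀ w₀ hsys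
  have hclass : ∀ g γ : Γ, IsPosParabolic (γ : SL(2, ℤ)) → ζ (g * γ * g⁻¹) = ζ γ := by
    intro g γ hγ
    have htr : ((γ : SL(2, ℤ)) : Matrix (Fin 2) (Fin 2) ℤ).trace ^ 2 = 4 := by
      rw [hγ.2.1]; norm_num
    exact S41.H221.isHeisLift_conj hζ g γ (hφ.1 γ htr) (hψ.1 γ htr)
  rw [S41.H769.cuspSumIndep Γ R ζ hclass ι ι₀ γ γ₀ hγ hcusp₀]
  have hχ : ∀ γ : Γ, IsOfFinOrder γ → S41.H221.heisDiff hζ hζ₀ (Additive.ofMul γ) = 0 := by
    intro γ hγ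
    rw [S41.H221.heisDiff_apply, hζ.2 γ hγ, hζ₀.2 γ hγ, sub_zero]
  have h1 := S41.H236.cuspSumZero S41.H460.maninRepExists Γ hneg R (S41.H221.heisDiff hζ hζ₀) hχ
    ι₀ γ₀ h₀ w₀ hsys
  have h2 := hβ ι₀ γ₀ h₀ w₀ hsys
  simp only [S41.H221.heisDiff_apply, Finset.sum_sub_distrib] at h1
  rw [sub_eq_zero.mp h1, h2, hA1 Γ hneg R φ ψ m m' e' hφ.1 hm hm' he']

end Beta

/-! ## `Ad ε` on matrices -/

/-- `g' = ε g ε⁻¹` for `ε = diag(-1, 1)`: `[[a, b], [c, d]] ↦ [[a, -b], [-c, d]]`. -/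
def IsEpsConj (g g' : SL(2, ℤ)) : Prop :=
  g' 0 0 = g 0 0 ∧ g' 0 1 = - g 0 1 ∧ g' 1 0 = - g 1 0 ∧ g' 1 1 = g 1 1

theorem sl2_ext {g g' : SL(2, ℤ)} (h00 : g 0 0 = g' 0 0) (h01 : g 0 1 = g' 0 1)
    (h10 : g 1 0 = g' 1 0) (h11 : g 1 1 = g' 1 1) : g = g' := by
  apply Matrix.SpecialLinearGroup.ext
  intro i j
  fin_cases i <;> fin_cases j
  · exact h00
  · exact h01
  · exact h10
  · exact h11

theorem sl2_inv_00 (g : SL(2, ℤ)) : (g⁻¹) 0 0 = g 1 1 := by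
  rw [Matrix.SpecialLinearGroup.coe_inv, Matrix.adjugate_fin_two]
  rfl

theorem sl2_inv_01 (g : SL(2, ℤ)) : (g⁻¹) 0 1 = - g 0 1 := by
  rw [Matrix.SpecialLinearGroup.coe_inv, Matrix.adjugate_fin_two]
  rfl

theorem sl2_inv_10 (g : SL(2, ℤ)) : (g⁻¹) 1 0 = - g 1 0 := by
  rw [Matrix.SpecialLinearGroup.coe_inv, Matrix.adjugate_fin_two]
  rfl

theorem sl2_inv_11 (g : SL(2, ℤ)) : (g⁻¹) 1 1 = g 0 0 := by
  rw [Matrix.SpecialLinearGroup.coe_inv, Matrix.adjugate_fin_two]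
  rfl

theorem sl2_one_entries : ((1 : SL(2, ℤ)) 0 0 = 1) ∧ ((1 : SL(2, ℤ)) 0 1 = 0) ∧
    ((1 : SL(2, ℤ)) 1 0 = 0) ∧ ((1 : SL(2, ℤ)) 1 1 = 1) := by
  refine ⟨?_, ?_, ?_, ?_⟩ <;> simp

theorem IsEpsConj.symm {g g' : SL(2, ℤ)} (h : IsEpsConj g g') : IsEpsConj g' g := by
  obtain ⟨h00, h01, h10, h11⟩ := h
  exact ⟨h00.symm, by rw [h01, neg_neg], by rw [h10, neg_neg], h11.symm⟩

theorem IsEpsConj.trace_eq {g g' : SL(2, ℤ)} (h : IsEpsConj g g') :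
    (g' : Matrix (Fin 2) (Fin 2) ℤ).trace = (g : Matrix (Fin 2) (Fin 2) ℤ).trace := by
  rw [Matrix.trace_fin_two, Matrix.trace_fin_two, h.1, h.2.2.2]

theorem IsEpsConj.eq_one_iff {g g' : SL(2, ℤ)} (h : IsEpsConj g g') : g' = 1 ↔ g = 1 := by
  obtain ⟨o00, o01, o10, o11⟩ := sl2_one_entries
  obtain ⟨h00, h01, h10, h11⟩ := h
  constructor
  · intro h1
    subst h1
    refine sl2_ext ?_ ?_ ?_ ?_
    · rw [← h00]
    · rw [o01, ← neg_eq_zero, ← h01, o01]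
    · rw [o10, ← neg_eq_zero, ← h10, o10]
    · rw [← h11]
  · intro h1
    subst h1
    refine sl2_ext ?_ ?_ ?_ ?_
    · rw [h00]
    · rw [h01, o01, neg_zero]
    · rw [h10, o10, neg_zero]
    · rw [h11]

/-- `Ad ε` followed by inversion preserves positive parabolic elements. -/
theorem IsEpsConj.isPosParabolic_inv {g g' : SL(2, ℤ)} (h : IsEpsConj g g')
    (hg : IsPosParabolic g) : IsPosParabolic g'⁻¹ := by
  obtain ⟨hne, htr, hb, hc⟩ := hg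
  refine ⟨?_, ?_, ?_, ?_⟩
  · intro h1
    exact hne (h.eq_one_iff.mp (inv_eq_one.mp h1))
  · rw [Matrix.trace_fin_two, sl2_inv_00, sl2_inv_11, h.1, h.2.2.2, add_comm, ← htr,
      Matrix.trace_fin_two]
  · rw [sl2_inv_01, h.2.1, neg_neg]
    exact hb
  · rw [sl2_inv_10, h.2.2.1, neg_neg]
    exact hc

/-! ## `Ad ε` on a subgroup -/

section Eps

variable {Γ : Subgroup SL(2, ℤ)} (σ : Γ →* Γ)

/-- `σ` is an involution. -/
theorem eps_invol (hσ : ∀ γ : Γ, IsEpsConj (γ : SL(2, ℤ)) (σ γ : SL(2, ℤ))) (γ : Γ) :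
    σ (σ γ) = γ := by
  apply Subtype.ext
  obtain ⟨h00, h01, h10, h11⟩ := hσ γ
  obtain ⟨k00, k01, k10, k11⟩ := hσ (σ γ)
  refine sl2_ext ?_ ?_ ?_ ?_
  · rw [k00, h00]
  · rw [k01, h01, neg_neg]
  · rw [k10, h10, neg_neg]
  · rw [k11, h11]

variable {σ}

theorem isPosParabolic_eps_inv (hσ : ∀ γ : Γ, IsEpsConj (γ : SL(2, ℤ)) (σ γ : SL(2, ℤ)))
    {γ : Γ} (hγ : IsPosParabolic (γ : SL(2, ℤ))) :
    IsPosParabolic (((σ γ)⁻¹ : Γ) : SL(2, ℤ)) := by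
  have := (hσ γ).isPosParabolic_inv hγ
  simpa using this

theorem isPrimPosParabolic_eps_inv (hσ : ∀ γ : Γ, IsEpsConj (γ : SL(2, ℤ)) (σ γ : SL(2, ℤ)))
    {γ : Γ} (hγ : IsPrimPosParabolic Γ γ) : IsPrimPosParabolic Γ (σ γ)⁻¹ := by
  refine ⟨isPosParabolic_eps_inv hσ hγ.1, fun γ' k hγ' hk => ?_⟩
  refine hγ.2 (σ γ')⁻¹ k (isPosParabolic_eps_inv hσ hγ') ?_
  rw [inv_pow, ← map_pow, hk, map_inv, inv_inv, eps_invol σ hσ]

/-- `γ ↦ (σ γ)⁻¹` maps cusp systems to cusp systems. -/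
theorem isCuspSystem_eps_inv (hσ : ∀ γ : Γ, IsEpsConj (γ : SL(2, ℤ)) (σ γ : SL(2, ℤ)))
    {ι : Type} {γ : ι → Γ} (hγ : IsCuspSystem Γ γ) :
    IsCuspSystem Γ (fun i => (σ (γ i))⁻¹) := by
  refine ⟨fun i => isPrimPosParabolic_eps_inv hσ (hγ.1 i), fun γ' hγ' => ?_⟩
  obtain ⟨i, ⟨g, hg⟩, huniq⟩ := hγ.2 (σ γ')⁻¹ (isPrimPosParabolic_eps_inv hσ hγ')
  refine ⟨i, ⟨σ g, ?_⟩, fun j hj => ?_⟩
  · show σ g * (σ (γ i))⁻¹ * (σ g)⁻¹ = γ'
    have h1 : σ (g * γ i * g⁻¹) = (γ')⁻¹ := by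
      rw [hg, map_inv, eps_invol σ hσ]
    rw [map_mul, map_mul, map_inv] at h1
    rw [← inv_inj, ← h1]
    group
  · obtain ⟨g', hg'⟩ := hj
    apply huniq
    refine ⟨σ g', ?_⟩
    have h1 : σ (g' * (σ (γ j))⁻¹ * g'⁻¹) = σ γ' := by
      rw [hg']
    rw [map_mul, map_mul, map_inv, map_inv, eps_invol σ hσ] at h1
    rw [← h1]
    group

theorem isCuspidalOn_comp_eps (hσ : ∀ γ : Γ, IsEpsConj (γ : SL(2, ℤ)) (σ γ : SL(2, ℤ)))
    {A : Type*} [AddCommGroup A] {x : Additive Γ →+ A} (hx : IsCuspidalOn Γ x) :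
    IsCuspidalOn Γ (x.comp (MonoidHom.toAdditive σ)) := by
  refine ⟨fun γ hγ => ?_, fun γ hγ => ?_⟩
  · refine hx.1 (σ γ) ?_
    rw [(hσ γ).trace_eq]
    exact hγ
  · exact hx.2 (σ γ) (σ.isOfFinOrder hγ)

theorem isHeisLift_comp_eps {R : Type*} [CommRing R] {φ ψ : Additive Γ →+ R} {ζ : Γ → R}
    (hζ : IsHeisLift Γ φ ψ ζ) :
    IsHeisLift Γ (φ.comp (MonoidHom.toAdditive σ)) (ψ.comp (MonoidHom.toAdditive σ))
      (fun γ => ζ (σ γ)) := by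
  refine ⟨fun γ γ' => ?_, fun γ hγ => ?_⟩
  · show ζ (σ (γ * γ')) = _
    rw [map_mul, hζ.1]
    rfl
  · exact hζ.2 _ (σ.isOfFinOrder hγ)

theorem isHeisLift_inv {R : Type*} [CommRing R] {φ ψ : Additive Γ →+ R} {ζ : Γ → R}
    (hζ : IsHeisLift Γ φ ψ ζ) (δ : Γ) (hδ : φ (Additive.ofMul δ) = 0) : ζ δ⁻¹ = - ζ δ := by
  have e1 := hζ.1 δ δ⁻¹
  rw [mul_inv_cancel, S41.H221.isHeisLift_map_one hζ, hδ, zero_mul, add_zero] at e1
  linear_combination -e1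

/-- **EPS.**  The Manin pairing is anti-invariant under `Ad ε`, `ε = diag(-1, 1)`: any commutative
ring, any subgroup of finite index containing `-1`, any realisation `σ` of `Ad ε` on `Γ`. -/
theorem maninPairing_comp_eps [Γ.FiniteIndex] (hneg : (-1 : SL(2, ℤ)) ∈ Γ)
    (hσ : ∀ γ : Γ, IsEpsConj (γ : SL(2, ℤ)) (σ γ : SL(2, ℤ)))
    {R : Type u} [CommRing R] {x y : Additive Γ →+ R} (hx : IsCuspidalOn Γ x)
    (hy : IsCuspidalOn Γ y) :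
    maninPairing Γ (x.comp (MonoidHom.toAdditive σ)) (y.comp (MonoidHom.toAdditive σ)) =
      - maninPairing Γ x y := by
  obtain ⟨ζ, hζ⟩ := exists_isHeisLift hneg hx hy
  obtain ⟨ι, inst, γ, h, w, hsys⟩ := S41.H769.tOrbitSystemExists Γ
  have hcusp := S41.H769.tOrbitCusp Γ hneg ι γ h w hsys
  have h1 := maninPairing_beta hneg (isCuspidalOn_comp_eps hσ hx) (isCuspidalOn_comp_eps hσ hy)
    (isHeisLift_comp_eps (σ := σ) hζ) hcusp
  have h2 := maninPairing_beta hneg hx hy hζ (isCuspSystem_eps_inv hσ hcusp)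
  have h3 : ∀ i, ζ (σ (γ i))⁻¹ = - ζ (σ (γ i)) := by
    intro i
    refine isHeisLift_inv hζ _ (hx.1 _ ?_)
    rw [(hσ (γ i)).trace_eq, (hcusp.1 i).1.2.1]
    norm_num
  simp only [h3, Finset.sum_neg_distrib, neg_inj] at h2
  rw [← h2, ← neg_eq_iff_eq_neg, ← h1]

end Eps

/-! ## The case `Γ₀(n)` -/

/-- `ε g ε⁻¹` as a matrix of determinant `1`. -/
def epsSL (g : SL(2, ℤ)) : SL(2, ℤ) :=
  ⟨!![g 0 0, - g 0 1; - g 1 0, g 1 1], by
    rw [Matrix.det_fin_two_of]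
    have := g.det_coe
    rw [Matrix.det_fin_two] at this
    linear_combination this⟩

theorem isEpsConj_epsSL (g : SL(2, ℤ)) : IsEpsConj g (epsSL g) :=
  ⟨rfl, rfl, rfl, rfl⟩

theorem coe_epsSL (g : SL(2, ℤ)) :
    (epsSL g : Matrix (Fin 2) (Fin 2) ℤ) = !![g 0 0, - g 0 1; - g 1 0, g 1 1] := rfl

theorem epsSL_mul (g h : SL(2, ℤ)) : epsSL (g * h) = epsSL g * epsSL h := by
  apply Subtype.ext
  rw [Matrix.SpecialLinearGroup.coe_mul, coe_epsSL, coe_epsSL, coe_epsSL,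
    Matrix.SpecialLinearGroup.coe_mul]
  ext i j
  fin_cases i <;> fin_cases j <;>
    simp [Matrix.mul_apply, Fin.sum_univ_two] <;> ring

theorem epsSL_one : epsSL 1 = 1 := by
  apply Matrix.SpecialLinearGroup.ext
  intro i j
  fin_cases i <;> fin_cases j <;> simp [epsSL]

theorem epsSL_epsSL (g : SL(2, ℤ)) : epsSL (epsSL g) = g := by
  apply Matrix.SpecialLinearGroup.ext
  intro i j
  fin_cases i <;> fin_cases j <;> simp [epsSL]

theorem epsSL_mem_gamma0 {n : ℕ} {g : SL(2, ℤ)} (hg : g ∈ Gamma0 n) : epsSL g ∈ Gamma0 n := by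
  rw [Gamma0_mem] at hg ⊢
  show ((- g 1 0 : ℤ) : ZMod n) = 0
  rw [Int.cast_neg, hg, neg_zero]

/-- `Ad ε` on `Γ₀(n)`. -/
def gamma0Eps (n : ℕ) : Gamma0 n ≃* Gamma0 n where
  toFun γ := ⟨epsSL γ, epsSL_mem_gamma0 γ.2⟩
  invFun γ := ⟨epsSL γ, epsSL_mem_gamma0 γ.2⟩
  left_inv _ := Subtype.ext (epsSL_epsSL _)
  right_inv _ := Subtype.ext (epsSL_epsSL _)
  map_mul' _ _ := Subtype.ext (epsSL_mul _ _)

theorem coe_gamma0Eps (n : ℕ) (γ : Gamma0 n) :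
    ((gamma0Eps n γ : Gamma0 n) : SL(2, ℤ)) = epsSL γ := rfl

theorem gamma0Eps_entries (n : ℕ) (γ : Gamma0 n) :
    IsEpsConj (γ : SL(2, ℤ)) ((gamma0Eps n γ : Gamma0 n) : SL(2, ℤ)) :=
  isEpsConj_epsSL _

theorem gamma0Eps_gamma0Eps (n : ℕ) (γ : Gamma0 n) : gamma0Eps n (gamma0Eps n γ) = γ :=
  Subtype.ext (epsSL_epsSL _)

/-- `x ↦ x ∘ Ad ε` preserves the cuspidal classes of `Γ₀(n)`. -/
theorem isCuspidal_comp_gamma0Eps {n : ℕ} {A : Type*} [AddCommGroup A]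
    {x : Additive (Gamma0 n) →+ A} (hx : IsCuspidal x) :
    IsCuspidal (x.comp (MonoidHom.toAdditive (gamma0Eps n).toMonoidHom)) :=
  isCuspidalOn_comp_eps (σ := (gamma0Eps n).toMonoidHom) (gamma0Eps_entries n) hx

/-- **EPS for `Γ₀(n)`**, any commutative ring (`ℤ`, `ℚ`, `ZMod m`, …). -/
theorem maninPairing_gamma0Eps {n : ℕ} (hn : n ≠ 0) {R : Type u} [CommRing R]
    {x y : Additive (Gamma0 n) →+ R} (hx : IsCuspidal x) (hy : IsCuspidal y) :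
    maninPairing (Gamma0 n) (x.comp (MonoidHom.toAdditive (gamma0Eps n).toMonoidHom))
        (y.comp (MonoidHom.toAdditive (gamma0Eps n).toMonoidHom)) =
      - maninPairing (Gamma0 n) x y := by
  have := S41.H221.finiteIndex_gamma0 hn
  exact maninPairing_comp_eps (σ := (gamma0Eps n).toMonoidHom) (S41.H221.neg_one_mem_gamma0 n)
    (gamma0Eps_entries n) hx hy

end Fermat.Agent.S15.H221
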