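import Fermat.Agent.S15.H221.PairAsm2
import Fermat.Agent.S15.H337.KumConj
import Fermat.Agent.S15.H975.DescTop2
import Fermat.Agent.S17.GDiv.Final

/-!
# COUNT for `r = 2`, UNCONDITIONAL  (helper221)

Row S15, node DESC, tower COUNT, `r = 2` (real place; design `coord/S15-COUNT2-helper111.md`).

    CONJ (helper337 `kumConj`) + EPS + perfect Manin pairing mod `2^k` (helper585) + Kummer dictionary (S30)
      ⟹ `pair2 : H111.Pair2Statement`
      ⟹ (+ DIV = S17 `GDiv.divisible`, FIN) `locR2Real : H111.LocR2RealStatement`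
      ⟹ `count_two` : `|(cc - 1) Y(W_E)|² ≤ |W_E|` for `r = 2`, `2 ∈ S`  (shape of `H975.CountStatement`).

* `conjStatement : ConjStatement`, `isKummerPairing (N m) : IsKummerPairing N m (kumPairing N m)` — the pairing on
  `J₀(N)[m]`, every `N, m ≠ 0`, unconditional.
-/

set_option autoImplicit false

noncomputable section

namespace Fermat.Agent.S15.H221

open ModularCurve Fermat.Agent.S15.H975

/-- **CONJ**, unconditional (helper337). -/
theorem conjStatement : ConjStatement := fun N m _ _ => Fermat.Agent.S15.H337.kumConj N m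

/-- **(PAIR)**, unconditional: the Manin pairing on `J₀(N)[m]`, every `N, m ≠ 0`. -/
theorem isKummerPairing (N m : ℕ) [NeZero N] [NeZero m] : IsKummerPairing N m (kumPairing N m) :=
  isKummerPairing_kumPairing N m (conjStatement N m)

/-- **(PAIR) for the moduli `2^k`**, in the shape of helper111, unconditional. -/
theorem pair2 : Fermat.Agent.S15.H111.Pair2Statement :=
  pair2_of_conj (conj2_of_conj conjStatement)

/-- **DIV** (row S17, tower G-DIV). -/
theorem divStatement : DivStatement := fun p _ _ r hr x =>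
  Fermat.Agent.S17.GDiv.divisible p r hr.ne_zero x

/-- **LOC-R2 at the real place**, unconditional. -/
theorem locR2Real : Fermat.Agent.S15.H111.LocR2RealStatement :=
  Fermat.Agent.S15.H111.locR2Real_of_pair divStatement finStatement pair2

/-- **COUNT for `r = 2`** (`2 ∈ S`): `|(cc - 1) Y(W_E)|² ≤ |W_E|`. -/
theorem count_two (p : ℕ) [NeZero p] (hp : p.Prime) (hp2 : p ≠ 2) (S : Finset ℕ) (h2 : 2 ∈ S) :
    Nat.card ↥(cocImage p (S : Set ℕ) 2 complexConjugation) ^ 2 ≤
      Nat.card ↥(eis p (S : Set ℕ) 2) := by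
  obtain ⟨K, hK, hcard, hmem⟩ := locR2Real p hp hp2 S h2
  have hfin : Finite ↥(tors p 2) := finStatement p 2 (by norm_num)
  have hKt : K ≤ tors p 2 := fun w hw => (hK hw).1
  have hfinK : Finite ↥K :=
    Finite.of_injective (fun x : ↥K => (⟨x, hKt x.2⟩ : ↥(tors p 2)))
      (fun a b h => Subtype.ext (congrArg (fun e : ↥(tors p 2) => (e : JZero p)) h))
  have hle : cocImage p (S : Set ℕ) 2 complexConjugation ≤ K := by
    rintro w ⟨y, hy, rfl⟩
    exact hmem y hy
  have h1 : Nat.card ↥(cocImage p (S : Set ℕ) 2 complexConjugation) ≤ Nat.card ↥K :=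
    Nat.card_le_card_of_injective (AddSubgroup.inclusion hle) (AddSubgroup.inclusion_injective hle)
  exact (Nat.pow_le_pow_left h1 2).trans hcard

end Fermat.Agent.S15.H221

end
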