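import Fermat.Agent.S30.Chain.Package
import Fermat.Agent.S30.H810.ParHom
import Fermat.Agent.Ribet.H883.Bridge
import Fermat.Agent.S59.H585.IntPDMod
import Fermat.Agent.S15.H221.Eps
import Fermat.Prelude.Def_GaloisRep_ComplexConjugation
import Fermat.Prelude.Def_ModularCurve_PeriodHomPair

/-!
# The Manin pairing on `J₀(N)[m]`  (helper221)

Leaf PAIR-ASM of row S15, node DESC, tower COUNT (`coord/S15-COUNT2-helper111.md`, (PAIR_k)); route P of
helper337.  Formal glue of

* the Kummer dictionary `κ : {parabolic characters Γ₀(N) → ℤ/m} ≃ J₀(N)[m]` (`S30.Chain.kumPackage`,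
  `S30.H810.exists_isParHom_isKum_of_torsion`),
* the Manin pairing modulo `m` (S41 `maninPairing`; perfect and Hecke self-adjoint: `S59.H585`),
* EPS (`S15.H221.Eps`), and the hypothesis CONJ (`ConjAt N m`: complex conjugation `↔ - Ad ε`).

Results (`N, m ≠ 0`):
* `kumHom N m x`, the character of `x ∈ J₀(N)[m]`; `kumHom_add`, `kumHom_hecke`, `kumHom_eq_zero_iff`,
  `exists_kumHom_eq` (onto the cuspidal classes), `kumHom_conj` (from CONJ);
* `kumPairing N m x y := maninPairing (Γ₀(N)) (kumHom x) (kumHom y)`;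
* `isKummerPairing_kumPairing : ConjAt N m → IsKummerPairing N m (kumPairing N m)`;
* `isKummerPairing₀_kumPairing` : everything except the conjugation, UNCONDITIONAL.
-/

set_option autoImplicit false

noncomputable section

namespace Fermat.Agent.S15.H221

open CongruenceSubgroup Matrix.SpecialLinearGroup ModularCurve ModularCurve.Period
open Fermat.Agent.S29 Fermat.Agent.S29.M4b Fermat.Agent.S30.H450 Fermat.Agent.Ribet.H883
open Fermat.Agent.S41.Spec
open scoped MatrixGroups

/-! ## The statements -/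

/-- **CONJ** at level `N`, modulus `m`: if `x` is the Kummer class of the character `c`, then the
complex conjugate of `x` is the Kummer class of `γ ↦ - c (ε γ ε⁻¹)`, `ε = diag(-1, 1)`
(`jConjGamma0` of the Prelude). -/
def ConjAt (N m : ℕ) [NeZero N] : Prop :=
  ∀ (c : G0 N → ZMod m) (x : JZero N), IsKum N m c x →
    IsKum N m (fun γ => - c (jConjGamma0 N γ)) (complexConjugation • x)

/-- The properties of the pairing on `J₀(N)[m]`, except the conjugation. -/
structure IsKummerPairing₀ (N m : ℕ) [NeZero N] (B : JZero N → JZero N → ZMod m) : Prop where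
  add_left : ∀ x x' y : JZero N, m • x = 0 → m • x' = 0 → m • y = 0 →
    B (x + x') y = B x y + B x' y
  add_right : ∀ x y y' : JZero N, m • x = 0 → m • y = 0 → m • y' = 0 →
    B x (y + y') = B x y + B x y'
  skew : ∀ x y : JZero N, m • x = 0 → m • y = 0 → B y x = - B x y
  left_kernel : ∀ x : JZero N, m • x = 0 → (∀ y : JZero N, m • y = 0 → B x y = 0) → x = 0
  right_kernel : ∀ y : JZero N, m • y = 0 → (∀ x : JZero N, m • x = 0 → B x y = 0) → y = 0
  hecke : ∀ ℓ : Nat.Primes, ¬ (ℓ : ℕ) ∣ N * m → ∀ x y : JZero N, m • x = 0 → m • y = 0 →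
    B (heckeOperatorBar N ℓ x) y = B x (heckeOperatorBar N ℓ y)

/-- **(PAIR)**: a pairing on `J₀(N)[m]` with values in `ℤ/m`: bi-additive, skew-symmetric,
perfect, Hecke self-adjoint (`ℓ ∤ N m`) and anti-invariant under the complex conjugation.
(Values outside `J₀(N)[m]` are junk.) -/
structure IsKummerPairing (N m : ℕ) [NeZero N] (B : JZero N → JZero N → ZMod m) : Prop
    extends IsKummerPairing₀ N m B where
  conj : ∀ x y : JZero N, m • x = 0 → m • y = 0 →
    B (complexConjugation • x) (complexConjugation • y) = - B x y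

/-! ## Formal consequences of the Kummer package -/

section Package

variable {N m : ℕ} [NeZero N]

omit [NeZero N] in
theorem isParHom_zero : IsParHom (0 : G0 N → ZMod m) :=
  ⟨fun _ _ => (add_zero _).symm, fun _ _ => rfl, fun _ _ _ _ => rfl⟩

theorem isKum_zsmul_eq_zero {c : G0 N → ZMod m} {x : JZero N} (h : IsKum N m c x) :
    (m : ℤ) • x = 0 := by
  obtain ⟨f, t, U, -, hx, -, -⟩ := h
  exact hx.zsmul_eq_zero

theorem isKum_nsmul_eq_zero {c : G0 N → ZMod m} {x : JZero N} (h : IsKum N m c x) :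
    m • x = 0 := by
  have := isKum_zsmul_eq_zero h
  rwa [natCast_zsmul] at this

theorem isKum_zero (K : KumPackage N m) : IsKum N m (0 : G0 N → ZMod m) (0 : JZero N) := by
  obtain ⟨x₀, hx₀⟩ := K.ex 0 isParHom_zero
  have h2 := K.add 0 0 x₀ x₀ hx₀ hx₀
  rw [add_zero] at h2
  have h3 : x₀ = x₀ + x₀ := K.uniq 0 _ _ hx₀ h2
  have h4 : x₀ = 0 := by
    have := congrArg (fun z => z - x₀) h3
    simpa using this.symm
  rwa [h4] at hx₀

theorem isKum_nsmul (K : KumPackage N m) {c : G0 N → ZMod m} {x : JZero N} (h : IsKum N m c x)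
    (n : ℕ) : IsKum N m (n • c) (n • x) := by
  induction n with
  | zero =>
    rw [zero_nsmul, zero_nsmul]
    exact isKum_zero K
  | succ n ih =>
    rw [succ_nsmul, succ_nsmul]
    exact K.add _ _ _ _ ih h

omit [NeZero N] in
theorem nsmul_char_eq_zero (c : G0 N → ZMod m) : m • c = 0 := by
  funext γ
  show m • c γ = 0
  rw [nsmul_eq_mul, ZMod.natCast_self, zero_mul]

theorem isKum_neg [NeZero m] (K : KumPackage N m) {c : G0 N → ZMod m} {x : JZero N}
    (h : IsKum N m c x) : IsKum N m (-c) (-x) := by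
  have h1 := isKum_nsmul K h (m - 1)
  have hm : 1 ≤ m := Nat.one_le_iff_ne_zero.mpr (NeZero.ne m)
  have e1 : (m - 1) • c = -c := by
    have e0 : (m - 1 + 1) • c = 0 := by
      rw [Nat.sub_add_cancel hm]
      exact nsmul_char_eq_zero c
    rw [succ_nsmul] at e0
    exact eq_neg_of_add_eq_zero_left e0
  have e2 : (m - 1) • x = -x := by
    have e0 : (m - 1 + 1) • x = 0 := by
      rw [Nat.sub_add_cancel hm]
      exact isKum_nsmul_eq_zero h
    rw [succ_nsmul] at e0
    exact eq_neg_of_add_eq_zero_left e0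
  rwa [e1, e2] at h1

/-- The character of a Kummer pair is determined by the point. -/
theorem isKum_char_unique [NeZero m] (K : KumPackage N m) {c c' : G0 N → ZMod m} {x : JZero N}
    (h : IsKum N m c x) (h' : IsKum N m c' x) : c = c' := by
  have h1 := K.add _ _ _ _ h (isKum_neg K h')
  rw [add_neg_cancel] at h1
  have h2 := K.inj _ h1
  exact sub_eq_zero.mp (by rw [sub_eq_add_neg]; exact h2)

end Package

/-! ## The two languages for characters -/

section Lang

variable {N : ℕ} {A : Type*} [AddCommGroup A]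

theorem isCuspidal_of_isParHom {φ : Additive (Gamma0 N) →+ A} (h : IsParHom (funOf φ)) :
    IsCuspidal φ := by
  refine ⟨fun γ hγ => ?_, fun γ hγ => ?_⟩
  · refine h.parabolic γ ?_
    have h4 : (G0.mat γ).trace ^ 2 = 4 := hγ
    have h5 : ((G0.mat γ).trace - 2) * ((G0.mat γ).trace + 2) = 0 := by
      linear_combination h4
    rcases mul_eq_zero.mp h5 with h6 | h6
    · exact Or.inl (by linarith)
    · exact Or.inr (by linarith)
  · obtain ⟨n, hn, hγn⟩ := isOfFinOrder_iff_pow_eq_one.mp hγ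
    exact h.elliptic γ n hn hγn

theorem isParHom_of_isCuspidal {φ : Additive (Gamma0 N) →+ A} (h : IsCuspidal φ) :
    IsParHom (funOf φ) := by
  refine ⟨funOf_map_mul φ, fun γ hγ => ?_, fun γ n hn hγn => ?_⟩
  · refine h.1 γ ?_
    show (G0.mat γ).trace ^ 2 = 4
    rcases hγ with h2 | h2 <;> rw [h2] <;> norm_num
  · exact h.2 γ (isOfFinOrder_iff_pow_eq_one.mpr ⟨n, hn, hγn⟩)

end Lang

/-! ## The character of a torsion point -/

section KumHom

variable (N m : ℕ) [NeZero N] [NeZero m]

/-- The parabolic character `Γ₀(N) → ℤ/m` of a point of `J₀(N)[m]` (junk `0` outside). -/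
def kumChar (x : JZero N) : G0 N → ZMod m :=
  open Classical in
  if h : (m : ℤ) • x = 0 then
    (Fermat.Agent.S30.H810.exists_isParHom_isKum_of_torsion N m h).choose
  else 0

variable {N m}

theorem kumChar_spec {x : JZero N} (hx : m • x = 0) :
    IsParHom (kumChar N m x) ∧ IsKum N m (kumChar N m x) x := by
  have hx' : (m : ℤ) • x = 0 := by rwa [natCast_zsmul]
  unfold kumChar
  rw [dif_pos hx']
  exact (Fermat.Agent.S30.H810.exists_isParHom_isKum_of_torsion N m hx').choose_spec

theorem kumChar_of_not {x : JZero N} (hx : ¬ m • x = 0) : kumChar N m x = 0 := by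
  have hx' : ¬ (m : ℤ) • x = 0 := by rwa [natCast_zsmul]
  unfold kumChar
  rw [dif_neg hx']

theorem isParHom_kumChar (x : JZero N) : IsParHom (kumChar N m x) := by
  by_cases hx : m • x = 0
  · exact (kumChar_spec hx).1
  · rw [kumChar_of_not hx]
    exact isParHom_zero

theorem kumChar_eq {x : JZero N} {c : G0 N → ZMod m} (h : IsKum N m c x) :
    kumChar N m x = c :=
  isKum_char_unique (Fermat.Agent.S30.Chain.kumPackage N m)
    (kumChar_spec (isKum_nsmul_eq_zero h)).2 h

variable (N m)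

/-- The cuspidal class `κ⁻¹ x ∈ Hom(Γ₀(N), ℤ/m)` of a point `x ∈ J₀(N)[m]`. -/
def kumHom (x : JZero N) : Additive (Gamma0 N) →+ ZMod m :=
  homOf (kumChar N m x) (isParHom_kumChar x).map_mul

variable {N m}

theorem funOf_kumHom (x : JZero N) : funOf (kumHom N m x) = kumChar N m x := rfl

theorem isCuspidal_kumHom (x : JZero N) : IsCuspidal (kumHom N m x) :=
  isCuspidal_of_isParHom (isParHom_kumChar x)

theorem isKum_kumHom {x : JZero N} (hx : m • x = 0) : IsKum N m (funOf (kumHom N m x)) x :=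
  (kumChar_spec hx).2

theorem kumHom_eq {x : JZero N} {φ : Additive (Gamma0 N) →+ ZMod m}
    (h : IsKum N m (funOf φ) x) : kumHom N m x = φ :=
  funOf_injective (kumChar_eq h)

theorem kumHom_add {x y : JZero N} (hx : m • x = 0) (hy : m • y = 0) :
    kumHom N m (x + y) = kumHom N m x + kumHom N m y :=
  kumHom_eq ((Fermat.Agent.S30.Chain.kumPackage N m).add _ _ _ _ (isKum_kumHom hx)
    (isKum_kumHom hy))

theorem kumHom_zero : kumHom N m (0 : JZero N) = 0 :=
  kumHom_eq (φ := 0) (isKum_zero (Fermat.Agent.S30.Chain.kumPackage N m))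

theorem kumHom_neg {x : JZero N} (hx : m • x = 0) : kumHom N m (-x) = - kumHom N m x :=
  kumHom_eq (φ := - kumHom N m x)
    (isKum_neg (Fermat.Agent.S30.Chain.kumPackage N m) (isKum_kumHom hx))

theorem kumHom_eq_zero_iff {x : JZero N} (hx : m • x = 0) : kumHom N m x = 0 ↔ x = 0 := by
  constructor
  · intro h
    have h1 := isKum_kumHom hx
    rw [h] at h1
    exact (Fermat.Agent.S30.Chain.kumPackage N m).uniq _ _ _ h1
      (isKum_zero (Fermat.Agent.S30.Chain.kumPackage N m))
  · rintro rfl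
    exact kumHom_zero

/-- `κ` is onto the cuspidal classes. -/
theorem exists_kumHom_eq {φ : Additive (Gamma0 N) →+ ZMod m} (hφ : IsCuspidal φ) :
    ∃ x : JZero N, m • x = 0 ∧ kumHom N m x = φ := by
  obtain ⟨x, hx⟩ := (Fermat.Agent.S30.Chain.kumPackage N m).ex _ (isParHom_of_isCuspidal hφ)
  exact ⟨x, isKum_nsmul_eq_zero hx, kumHom_eq hx⟩

omit [NeZero m] in
theorem hecke_nsmul_eq_zero (ℓ : Nat.Primes) {x : JZero N} (hx : m • x = 0) :
    m • heckeOperatorBar N ℓ x = 0 := by
  rw [← map_nsmul, hx, map_zero]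

theorem kumHom_hecke (ℓ : Nat.Primes) (hℓ : ¬ (ℓ : ℕ) ∣ N * m) {x : JZero N} (hx : m • x = 0) :
    haveI : Fact (ℓ : ℕ).Prime := ⟨ℓ.2⟩
    kumHom N m (heckeOperatorBar N ℓ x) =
      H642.heckeTransfer (fun hd => hℓ (Dvd.dvd.mul_right hd m)) (kumHom N m x) := by
  have : Fact (ℓ : ℕ).Prime := ⟨ℓ.2⟩
  have hℓN : ¬ (ℓ : ℕ) ∣ N := fun hd => hℓ (Dvd.dvd.mul_right hd m)
  refine kumHom_eq ?_
  rw [funOf_heckeTransfer hℓN]
  exact (Fermat.Agent.S30.Chain.kumPackage N m).hecke ℓ hℓ _ x (isParHom_kumChar x)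
    (isKum_kumHom hx)

omit [NeZero N] [NeZero m] in
theorem conj_nsmul_eq_zero {x : JZero N} (hx : m • x = 0) :
    m • (complexConjugation • x) = 0 := by
  show m • (DistribSMul.toAddMonoidHom (JZero N) complexConjugation x) = 0
  rw [← map_nsmul, hx, map_zero]

theorem kumHom_conj (hconj : ConjAt N m) {x : JZero N} (hx : m • x = 0) :
    kumHom N m (complexConjugation • x) =
      - (kumHom N m x).comp (MonoidHom.toAdditive (jConjGamma0 N)) :=
  kumHom_eq (φ := - (kumHom N m x).comp (MonoidHom.toAdditive (jConjGamma0 N)))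
    (hconj _ x (isKum_kumHom hx))

end KumHom

/-! ## `Ad ε` of the Prelude -/

theorem isEpsConj_jConjGamma0 (N : ℕ) (γ : Gamma0 N) :
    IsEpsConj (γ : SL(2, ℤ)) ((jConjGamma0 N γ : Gamma0 N) : SL(2, ℤ)) := by
  refine ⟨?_, ?_, ?_, ?_⟩
  · show (jConjMat _) 0 0 = _
    rw [jConjMat_apply_zero_zero]
  · show (jConjMat _) 0 1 = _
    rw [jConjMat_apply_zero_one]
  · show (jConjMat _) 1 0 = _
    rw [jConjMat_apply_one_zero]
  · show (jConjMat _) 1 1 = _
    rw [jConjMat_apply_one_one]

theorem isCuspidal_comp_jConjGamma0 {N : ℕ} {A : Type*} [AddCommGroup A]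
    {x : Additive (Gamma0 N) →+ A} (hx : IsCuspidal x) :
    IsCuspidal (x.comp (MonoidHom.toAdditive (jConjGamma0 N))) :=
  isCuspidalOn_comp_eps (σ := jConjGamma0 N) (isEpsConj_jConjGamma0 N) hx

/-- **EPS** for the Prelude's `jConjGamma0`. -/
theorem maninPairing_jConjGamma0 {N : ℕ} (hN : N ≠ 0) {R : Type} [CommRing R]
    {x y : Additive (Gamma0 N) →+ R} (hx : IsCuspidal x) (hy : IsCuspidal y) :
    maninPairing (Gamma0 N) (x.comp (MonoidHom.toAdditive (jConjGamma0 N)))
        (y.comp (MonoidHom.toAdditive (jConjGamma0 N))) = - maninPairing (Gamma0 N) x y := by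
  have := Fermat.Agent.S41.H221.finiteIndex_gamma0 hN
  exact maninPairing_comp_eps (σ := jConjGamma0 N) (Fermat.Agent.S41.H221.neg_one_mem_gamma0 N)
    (isEpsConj_jConjGamma0 N) hx hy

/-- **EPS** for the Prelude's `charInvolution`. -/
theorem maninPairing_charInvolution {N : ℕ} (hN : N ≠ 0) {R : Type} [CommRing R]
    {x y : Additive (Gamma0 N) →+ R} (hx : IsCuspidal x) (hy : IsCuspidal y) :
    maninPairing (Gamma0 N) (charInvolution N ℤ R x) (charInvolution N ℤ R y) =
      - maninPairing (Gamma0 N) x y :=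
  maninPairing_jConjGamma0 hN hx hy

/-! ## The pairing -/

section Pairing

variable (N m : ℕ) [NeZero N] [NeZero m]

/-- **The Manin pairing on `J₀(N)[m]`**: `B(x, y) = maninPairing (κ⁻¹ x) (κ⁻¹ y)`. -/
def kumPairing (x y : JZero N) : ZMod m :=
  maninPairing (Gamma0 N) (kumHom N m x) (kumHom N m y)

theorem kumPairing_def (x y : JZero N) :
    kumPairing N m x y = maninPairing (Gamma0 N) (kumHom N m x) (kumHom N m y) := rfl

/-- Everything except the conjugation, unconditionally. -/
theorem isKummerPairing₀_kumPairing : IsKummerPairing₀ N m (kumPairing N m) := by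
  have hN : N ≠ 0 := NeZero.ne N
  have hFI := Fermat.Agent.S41.H221.finiteIndex_gamma0 hN
  have hneg := Fermat.Agent.S41.H221.neg_one_mem_gamma0 N
  refine ⟨?_, ?_, ?_, ?_, ?_, ?_⟩
  · intro x x' y hx hx' _
    rw [kumPairing_def, kumHom_add hx hx']
    exact Fermat.Agent.S59.H585.maninPairing_add_left hneg (isCuspidal_kumHom x)
      (isCuspidal_kumHom x') (isCuspidal_kumHom y)
  · intro x y y' _ hy hy'
    rw [kumPairing_def, kumHom_add hy hy']
    exact Fermat.Agent.S59.H585.maninPairing_add_right hneg (isCuspidal_kumHom x)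
      (isCuspidal_kumHom y) (isCuspidal_kumHom y')
  · intro x y _ _
    exact Fermat.Agent.S59.H585.maninPairing_skew hneg (isCuspidal_kumHom x) (isCuspidal_kumHom y)
  · intro x hx h
    refine (kumHom_eq_zero_iff hx).mp ?_
    refine Fermat.Agent.S59.H585.pairing_mod_left_kernel hneg m (isCuspidal_kumHom x) ?_
    intro ψ hψ
    obtain ⟨y, hy, rfl⟩ := exists_kumHom_eq hψ
    exact h y hy
  · intro y hy h
    refine (kumHom_eq_zero_iff hy).mp ?_
    refine Fermat.Agent.S59.H585.pairing_mod_right_kernel hneg m (isCuspidal_kumHom y) ?_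
    intro ψ hψ
    obtain ⟨x, hx, rfl⟩ := exists_kumHom_eq hψ
    exact h x hx
  · intro ℓ hℓ x y hx hy
    have : Fact (ℓ : ℕ).Prime := ⟨ℓ.2⟩
    have hℓN : ¬ (ℓ : ℕ) ∣ N := fun hd => hℓ (Dvd.dvd.mul_right hd m)
    rw [kumPairing_def, kumPairing_def, kumHom_hecke ℓ hℓ hx, kumHom_hecke ℓ hℓ hy]
    exact Fermat.Agent.S59.H585.pairing_hecke_mod m hℓN hN _ _ (isCuspidal_kumHom x)
      (isCuspidal_kumHom y)

/-- **(PAIR) from CONJ.** -/
theorem isKummerPairing_kumPairing (hconj : ConjAt N m) : IsKummerPairing N m (kumPairing N m) := by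
  have hN : N ≠ 0 := NeZero.ne N
  have hFI := Fermat.Agent.S41.H221.finiteIndex_gamma0 hN
  have hneg := Fermat.Agent.S41.H221.neg_one_mem_gamma0 N
  refine ⟨isKummerPairing₀_kumPairing N m, ?_⟩
  intro x y hx hy
  have hx' := isCuspidal_comp_jConjGamma0 (isCuspidal_kumHom (N := N) (m := m) x)
  have hy' := isCuspidal_comp_jConjGamma0 (isCuspidal_kumHom (N := N) (m := m) y)
  rw [kumPairing_def, kumHom_conj hconj hx, kumHom_conj hconj hy]
  have h1 : maninPairing (Gamma0 N) (-(kumHom N m x).comp (MonoidHom.toAdditive (jConjGamma0 N)))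
      (-(kumHom N m y).comp (MonoidHom.toAdditive (jConjGamma0 N))) =
      maninPairing (Gamma0 N) ((kumHom N m x).comp (MonoidHom.toAdditive (jConjGamma0 N)))
        ((kumHom N m y).comp (MonoidHom.toAdditive (jConjGamma0 N))) := by
    have e1 : ∀ φ : Additive (Gamma0 N) →+ ZMod m, -φ = (-1 : ZMod m) • φ := fun φ => by
      rw [neg_smul, one_smul]
    have hy'' : IsCuspidal ((-1 : ZMod m) •
        (kumHom N m y).comp (MonoidHom.toAdditive (jConjGamma0 N))) :=
      (Fermat.Agent.S59.H585.cuspSub (ZMod m) (Gamma0 N) (ZMod m)).smul_mem _ hy'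
    rw [e1, e1 ((kumHom N m y).comp _),
      Fermat.Agent.S59.H585.maninPairing_smul_left hneg _ hx' hy'',
      Fermat.Agent.S59.H585.maninPairing_smul_right hneg _ hx' hy']
    ring
  rw [h1, maninPairing_jConjGamma0 hN (isCuspidal_kumHom x) (isCuspidal_kumHom y)]
  rfl

end Pairing

end Fermat.Agent.S15.H221

end
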