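import Fermat.Agent.S15.H221.PairAsm
import Fermat.Agent.S15.H111.LocR2Real

/-!
# (PAIR) in the shape of helper111: `Pair2Statement` from CONJ  (helper221)

* `Conj2Statement`   : CONJ at the levels `p` prime, moduli `2^k`;
* `pair2_of_conj`    : `Conj2Statement → H111.Pair2Statement`  (VERBATIM target of
  `Fermat/Agent/S15/H111/LocR2Real.lean`);
* `locR2Real_of_conj`: `DIV + FIN + CONJ ⟹ H111.LocR2RealStatement`.
-/

set_option autoImplicit false

noncomputable section

namespace Fermat.Agent.S15.H221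

open ModularCurve

/-- CONJ at prime level, moduli `2^k`. -/
def Conj2Statement : Prop :=
  ∀ (p : ℕ) [NeZero p], p.Prime → p ≠ 2 → ∀ k : ℕ, ConjAt p (2 ^ k)

/-- CONJ at every level and modulus. -/
def ConjStatement : Prop :=
  ∀ (N m : ℕ) [NeZero N] [NeZero m], ConjAt N m

theorem conj2_of_conj (h : ConjStatement) : Conj2Statement := fun p _ _ _ k =>
  haveI : NeZero (2 ^ k) := ⟨pow_ne_zero k two_ne_zero⟩
  h p (2 ^ k)

theorem not_dvd_mul_two_pow {p ℓ : ℕ} (hp : p.Prime) (hℓ : ℓ.Prime) (h1 : ℓ ≠ p) (h2 : ℓ ≠ 2)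
    (k : ℕ) : ¬ ℓ ∣ p * 2 ^ k := by
  intro hd
  rcases (Nat.Prime.dvd_mul hℓ).mp hd with h | h
  · exact h1 ((Nat.prime_dvd_prime_iff_eq hℓ hp).mp h)
  · exact h2 ((Nat.prime_dvd_prime_iff_eq hℓ Nat.prime_two).mp (hℓ.dvd_of_dvd_pow h))

/-- **(PAIR) for the moduli `2^k`, from CONJ.** -/
theorem pair2_of_conj (hconj : Conj2Statement) : Fermat.Agent.S15.H111.Pair2Statement := by
  intro p _ hp hp2 k
  have : NeZero (2 ^ k) := ⟨pow_ne_zero k two_ne_zero⟩
  have hB := isKummerPairing_kumPairing p (2 ^ k) (hconj p hp hp2 k)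
  refine ⟨kumPairing p (2 ^ k), ?_, ?_, ?_, ?_, ?_⟩
  · intro x x' y hx hx' hy
    exact hB.add_left x x' y hx hx' hy
  · intro x y y' hx hy hy'
    exact hB.add_right x y y' hx hy hy'
  · intro y hy h
    exact hB.right_kernel y hy h
  · intro ℓ h1 h2 x y hx hy
    exact hB.hecke ℓ (not_dvd_mul_two_pow hp ℓ.2 h1 h2 k) x y hx hy
  · intro x y hx hy
    exact hB.conj x y hx hy

/-- **LOC-R2 at the real place from DIV, FIN and CONJ.** -/
theorem locR2Real_of_conj (hDiv : Fermat.Agent.S15.H975.DivStatement)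
    (hFin : Fermat.Agent.S15.H975.FinStatement) (hconj : Conj2Statement) :
    Fermat.Agent.S15.H111.LocR2RealStatement :=
  Fermat.Agent.S15.H111.locR2Real_of_pair hDiv hFin (pair2_of_conj hconj)

end Fermat.Agent.S15.H221

end
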